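/-
Row 37 (S43), block EXP (helper200): CHANGE OF EXPONENT for the Kummer modules `S48.BB.M.W F n`
(`F` ANY field over `ℚ̄`; no function field hypothesis in this file).

In `J`-language (`W F n = J[n]`, `[u] ↔ D` with `n D = div u`):
* `dn n k : W F (n * k) →+ W F n`, `[u] ↦ [u]`     = multiplication by `k`, `J[n k] → J[n]`;
* `up n k : W F n →+ W F (n * k)`, `[u] ↦ [u ^ k]` = the inclusion `J[n] ⊆ J[n k]`.

PROVED HERE: `dn_up`, `up_dn` (both composites are multiplication by `k`), `up_injective`,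
`range up = ker (n • ·)` (`exists_up_eq_of_nsmul_eq_zero`), `ker dn = range up'` (`exists_up'_eq_of_dn_eq_zero`,
`up' n k : W F k →+ W F (n * k)`, `[w] ↦ [w ^ n]`), naturality with respect to every `mapW f`.
-/
import Fermat.Agent.S48.BB.M.Kum

set_option autoImplicit false

noncomputable section

namespace Fermat.Agent.S43.Exp

open AlgebraicCurve Fermat.Agent.S24 Fermat.Agent.S48.BB.M

variable {F : Type*} [Field F] [Algebra Kbar F]

theorem isKum_of_mul {n k : ℕ} {u : F} (h : IsKum F (n * k) u) : IsKum F n u := fun v =>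
  (Dvd.intro _ (by push_cast; rfl) : (n : ℤ) ∣ ((n * k : ℕ) : ℤ)).trans (h v)

theorem isKum_pow_mul {n : ℕ} (k : ℕ) {u : F} (h : IsKum F n u) : IsKum F (n * k) (u ^ k) := by
  intro v
  rw [FF.ord_pow]
  obtain ⟨c, hc⟩ := h v
  exact ⟨c, by rw [hc]; push_cast; ring⟩

theorem isKum_pow_mul' (n : ℕ) {k : ℕ} {u : F} (h : IsKum F k u) : IsKum F (n * k) (u ^ n) := by
  rw [mul_comm]
  exact isKum_pow_mul n h

theorem kum_mul_le (n k : ℕ) : kum F (n * k) ≤ kum F n := fun _ hu => isKum_of_mul hu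

/-- `[u] ↦ [u]`: multiplication by `k`, `J[n k] → J[n]`. -/
def dn (n k : ℕ) : W F (n * k) →+ W F n :=
  MonoidHom.toAdditive <|
    QuotientGroup.map _ _ (Subgroup.inclusion (kum_mul_le (F := F) n k)) (by
      rintro ⟨u, hu⟩ ⟨w, hw⟩
      refine ⟨w ^ k, ?_⟩
      show (w ^ k) ^ n = u
      rw [← pow_mul, mul_comm k n]
      exact hw)

theorem dn_cls {n k : ℕ} (u : kum F (n * k)) :
    dn n k (cls u) = cls (⟨(u : Fˣ), kum_mul_le n k u.2⟩ : kum F n) := rfl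

theorem pow_mem_kum {n : ℕ} (k : ℕ) {u : Fˣ} (hu : u ∈ kum F n) : u ^ k ∈ kum F (n * k) := by
  show IsKum F (n * k) ((u ^ k : Fˣ) : F)
  rw [Units.val_pow_eq_pow_val]
  exact isKum_pow_mul k hu

theorem pow_mem_kum' (n : ℕ) {k : ℕ} {u : Fˣ} (hu : u ∈ kum F k) : u ^ n ∈ kum F (n * k) := by
  show IsKum F (n * k) ((u ^ n : Fˣ) : F)
  rw [Units.val_pow_eq_pow_val]
  exact isKum_pow_mul' n hu

/-- `[u] ↦ [u ^ k]`: the inclusion `J[n] ⊆ J[n k]`. -/
def up (n k : ℕ) : W F n →+ W F (n * k) :=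
  MonoidHom.toAdditive <|
    QuotientGroup.map _ _
      (((powMonoidHom k : Fˣ →* Fˣ).comp (kum F n).subtype).codRestrict (kum F (n * k))
        fun u => pow_mem_kum k u.2) (by
      rintro ⟨u, hu⟩ ⟨w, hw⟩
      refine ⟨w, ?_⟩
      show w ^ (n * k) = u ^ k
      rw [pow_mul]
      exact congrArg (· ^ k) hw)

theorem up_cls {n k : ℕ} (u : kum F n) :
    up n k (cls u) = cls (⟨(u : Fˣ) ^ k, pow_mem_kum k u.2⟩ : kum F (n * k)) := rfl

/-- `[w] ↦ [w ^ n]`: the inclusion `J[k] ⊆ J[n k]`. -/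
def up' (n k : ℕ) : W F k →+ W F (n * k) :=
  MonoidHom.toAdditive <|
    QuotientGroup.map _ _
      (((powMonoidHom n : Fˣ →* Fˣ).comp (kum F k).subtype).codRestrict (kum F (n * k))
        fun u => pow_mem_kum' n u.2) (by
      rintro ⟨u, hu⟩ ⟨w, hw⟩
      refine ⟨w, ?_⟩
      show w ^ (n * k) = u ^ n
      rw [mul_comm, pow_mul]
      exact congrArg (· ^ n) hw)

theorem up'_cls {n k : ℕ} (u : kum F k) :
    up' n k (cls u) = cls (⟨(u : Fˣ) ^ n, pow_mem_kum' n u.2⟩ : kum F (n * k)) := rfl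

theorem dn_up (n k : ℕ) (x : W F n) : dn n k (up n k x) = k • x := by
  obtain ⟨u, rfl⟩ := cls_surjective x
  rw [up_cls, dn_cls, ← cls_pow]
  rfl

theorem up_dn (n k : ℕ) (y : W F (n * k)) : up n k (dn n k y) = k • y := by
  obtain ⟨u, rfl⟩ := cls_surjective y
  rw [dn_cls, up_cls, ← cls_pow]
  rfl

theorem dn_up' (n k : ℕ) (x : W F k) : dn n k (up' n k x) = 0 := by
  obtain ⟨u, rfl⟩ := cls_surjective x
  rw [up'_cls, dn_cls, cls_eq_zero_iff]
  exact ⟨u, rfl⟩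

/-- An element of `F` whose `k`-th power is `1` is a constant. -/
theorem exists_const_of_pow_eq_one {k : ℕ} (hk : 0 < k) {a : F} (ha : a ^ k = 1) :
    ∃ c : Kbar, c ^ k = 1 ∧ algebraMap Kbar F c = a := by
  classical
  have : NeZero k := ⟨hk.ne'⟩
  have : NeZero (k : Kbar) := ⟨by exact_mod_cast hk.ne'⟩
  obtain ⟨ζ, hζ⟩ := HasEnoughRootsOfUnity.exists_primitiveRoot Kbar k
  have hζ' : IsPrimitiveRoot (algebraMap Kbar F ζ) k :=
    hζ.map_of_injective (algebraMap Kbar F).injective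
  obtain ⟨i, -, hi⟩ := hζ'.eq_pow_of_pow_eq_one ha
  refine ⟨ζ ^ i, ?_, by rw [map_pow, hi]⟩
  rw [← pow_mul, mul_comm, pow_mul, hζ.pow_eq_one, one_pow]

/-- If `a ^ k = b ^ k` in `Fˣ` then `a = c b` with `c` a constant. -/
theorem exists_const_mul_of_pow_eq {k : ℕ} (hk : 0 < k) (m : ℕ) (hm : 0 < m) {a b : Fˣ}
    (h : a ^ k = b ^ k) : ∃ c : Fˣ, a = c ^ m * b := by
  have h1 : (((a / b : Fˣ) : Fˣ) : F) ^ k = 1 := by
    rw [← Units.val_pow_eq_pow_val, div_pow, h, div_self', Units.val_one]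
  obtain ⟨c, -, hc⟩ := exists_const_of_pow_eq_one hk h1
  obtain ⟨d, hd⟩ := IsAlgClosed.exists_pow_nat_eq c hm
  have hd0 : algebraMap Kbar F d ≠ 0 := by
    intro h0
    have : ((a / b : Fˣ) : F) = 0 := by rw [← hc, ← hd, map_pow, h0, zero_pow hm.ne']
    exact (a / b).ne_zero this
  refine ⟨Units.mk0 _ hd0, ?_⟩
  have h2 : (Units.mk0 _ hd0 : Fˣ) ^ m = a / b := by
    apply Units.ext
    rw [Units.val_pow_eq_pow_val, Units.val_mk0, ← map_pow, hd, hc]
  rw [h2, div_mul_cancel]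

theorem up_injective (n : ℕ) (hn : 0 < n) {k : ℕ} (hk : 0 < k) :
    Function.Injective (up (F := F) n k) := by
  rw [injective_iff_map_eq_zero]
  intro x hx
  obtain ⟨u, rfl⟩ := cls_surjective x
  rw [up_cls, cls_eq_zero_iff] at hx
  obtain ⟨w, hw⟩ := hx
  have hw' : ((u : Fˣ)) ^ k = (w ^ n) ^ k := by
    rw [← pow_mul]
    exact hw.symm
  obtain ⟨c, hc⟩ := exists_const_mul_of_pow_eq hk n hn hw'
  rw [cls_eq_zero_iff]
  exact ⟨c * w, by show (c * w) ^ n = _; rw [mul_pow, hc]⟩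

theorem up'_injective {n : ℕ} (hn : 0 < n) (k : ℕ) (hk : 0 < k) :
    Function.Injective (up' (F := F) n k) := by
  rw [injective_iff_map_eq_zero]
  intro x hx
  obtain ⟨u, rfl⟩ := cls_surjective x
  rw [up'_cls, cls_eq_zero_iff] at hx
  obtain ⟨w, hw⟩ := hx
  have hw' : ((u : Fˣ)) ^ n = (w ^ k) ^ n := by
    rw [← pow_mul, mul_comm k n]
    exact hw.symm
  obtain ⟨c, hc⟩ := exists_const_mul_of_pow_eq hn k hk hw'
  rw [cls_eq_zero_iff]
  exact ⟨c * w, by show (c * w) ^ k = _; rw [mul_pow, hc]⟩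

/-- If `w ^ k` is a Kummer unit of exponent `n k` then `w` is a Kummer unit of exponent `n`. -/
theorem isKum_of_pow {n k : ℕ} (hk : 0 < k) {w : F} (h : IsKum F (n * k) (w ^ k)) :
    IsKum F n w := by
  intro v
  have h1 := h v
  rw [FF.ord_pow] at h1
  have hk' : (k : ℤ) ≠ 0 := by exact_mod_cast hk.ne'
  have h2 : (k : ℤ) * n ∣ k * v.ord w := by
    have : ((n * k : ℕ) : ℤ) = (k : ℤ) * n := by push_cast; ring
    rwa [this] at h1
  exact (mul_dvd_mul_iff_left hk').mp h2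

/-- `W(n k)[n] = up (W n)`. -/
theorem exists_up_eq_of_nsmul_eq_zero {n : ℕ} (hn : 0 < n) {k : ℕ} (hk : 0 < k) (y : W F (n * k))
    (hy : n • y = 0) : ∃ x : W F n, up n k x = y := by
  obtain ⟨u, rfl⟩ := cls_surjective y
  rw [← cls_pow, cls_eq_zero_iff] at hy
  obtain ⟨w, hw⟩ := hy
  have hw' : ((u : Fˣ)) ^ n = (w ^ k) ^ n := by
    rw [← pow_mul, mul_comm k n]
    exact hw.symm
  obtain ⟨c, hc⟩ := exists_const_mul_of_pow_eq hn k hk hw'
  have hu : (u : Fˣ) = (c * w) ^ k := by rw [mul_pow, hc]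
  have hcw : c * w ∈ kum F n := by
    show IsKum F n ((c * w : Fˣ) : F)
    apply isKum_of_pow hk
    rw [← Units.val_pow_eq_pow_val, ← hu]
    exact u.2
  refine ⟨cls ⟨c * w, hcw⟩, ?_⟩
  rw [up_cls]
  exact congrArg cls (Subtype.ext hu.symm)

theorem nsmul_up (n k : ℕ) (x : W F n) : n • up n k x = 0 := by
  rw [← map_nsmul, nsmul_W, map_zero]

/-- `ker (dn : W(n k) → W n) = up' (W k)`. -/
theorem exists_up'_eq_of_dn_eq_zero {n : ℕ} (hn : 0 < n) (k : ℕ) (y : W F (n * k))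
    (hy : dn n k y = 0) : ∃ x : W F k, up' n k x = y := by
  obtain ⟨u, rfl⟩ := cls_surjective y
  rw [dn_cls, cls_eq_zero_iff] at hy
  obtain ⟨w, hw⟩ := hy
  have hw' : w ^ n = (u : Fˣ) := hw
  have hwk : w ∈ kum F k := by
    show IsKum F k (w : F)
    apply isKum_of_pow (n := k) (k := n) hn
    rw [← Units.val_pow_eq_pow_val, hw', mul_comm]
    exact u.2
  refine ⟨cls ⟨w, hwk⟩, ?_⟩
  rw [up'_cls]
  exact congrArg cls (Subtype.ext hw')

/-! ### Naturality -/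

section nat

variable {F' : Type*} [Field F'] [Algebra Kbar F']

theorem dn_mapW {n k : ℕ} (f : Fˣ →* F'ˣ) (hf : ∀ u ∈ kum F n, f u ∈ kum F' n)
    (hf' : ∀ u ∈ kum F (n * k), f u ∈ kum F' (n * k)) (y : W F (n * k)) :
    dn n k (mapW f hf' y) = mapW f hf (dn n k y) := by
  obtain ⟨u, rfl⟩ := cls_surjective y
  rw [mapW_cls, dn_cls, dn_cls, mapW_cls]

theorem up_mapW {n k : ℕ} (f : Fˣ →* F'ˣ) (hf : ∀ u ∈ kum F n, f u ∈ kum F' n)
    (hf' : ∀ u ∈ kum F (n * k), f u ∈ kum F' (n * k)) (x : W F n) :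
    up n k (mapW f hf x) = mapW f hf' (up n k x) := by
  obtain ⟨u, rfl⟩ := cls_surjective x
  rw [mapW_cls, up_cls, up_cls, mapW_cls]
  exact congrArg cls (Subtype.ext (map_pow f _ _).symm)

theorem up'_mapW {n k : ℕ} (f : Fˣ →* F'ˣ) (hf : ∀ u ∈ kum F k, f u ∈ kum F' k)
    (hf' : ∀ u ∈ kum F (n * k), f u ∈ kum F' (n * k)) (x : W F k) :
    up' n k (mapW f hf x) = mapW f hf' (up' n k x) := by
  obtain ⟨u, rfl⟩ := cls_surjective x
  rw [mapW_cls, up'_cls, up'_cls, mapW_cls]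
  exact congrArg cls (Subtype.ext (map_pow f _ _).symm)

end nat

end Fermat.Agent.S43.Exp

end
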