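/-
Row 37 (S43), block EXP (helper200): LOCALISATION ("`m`-part") AND CHANGE OF EXPONENT, abstract form (Mathlib only).

`gker f` = the generalised kernel of a family `f : ι → AddMonoid.End A` of endomorphisms of an abelian group
(take `f i = T_i - a_i`, `U_q - u`, `δ - 1`, `⟨d⟩ - 1`, ...; `ι` may be infinite):
  `a ∈ gker f ↔ ∀ i, ∃ N, (f i ^ N) a = 0`.

MAIN RESULTS (`A` finite, the `f i` commute):
* `exists_mem_gker_map_eq` : an equivariant SURJECTION `π : A → B` maps `gker fA` ONTO `gker fB`;
* `mem_gker_of_map_mem`    : an equivariant INJECTION reflects membership in `gker`;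
* `Tower.*`                : the localised form of `Exp/Basic`, `Exp/Sym`, `Exp/Surj`.
-/
import Mathlib

set_option autoImplicit false

namespace Fermat.Agent.S43.Exp

variable {A B : Type*} [AddCommGroup A] [AddCommGroup B] {ι : Type*}

theorem endMul_apply (f g : AddMonoid.End A) (a : A) : (f * g) a = f (g a) := rfl

/-- The generalised kernel of a family of endomorphisms. -/
def gker (f : ι → AddMonoid.End A) : AddSubgroup A where
  carrier := {a | ∀ i, ∃ N : ℕ, (f i ^ N) a = 0}
  zero_mem' := fun _ => ⟨0, map_zero _⟩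
  add_mem' := by
    intro a b ha hb i
    obtain ⟨N, hN⟩ := ha i
    obtain ⟨M, hM⟩ := hb i
    refine ⟨N + M, ?_⟩
    rw [map_add]
    have h1 : (f i ^ (N + M)) a = 0 := by
      rw [add_comm, pow_add, endMul_apply, hN, map_zero]
    have h2 : (f i ^ (N + M)) b = 0 := by
      rw [pow_add, endMul_apply, hM, map_zero]
    rw [h1, h2, add_zero]
  neg_mem' := by
    intro a ha i
    obtain ⟨N, hN⟩ := ha i
    exact ⟨N, by rw [map_neg, hN, neg_zero]⟩

theorem mem_gker {f : ι → AddMonoid.End A} {a : A} :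
    a ∈ gker f ↔ ∀ i, ∃ N : ℕ, (f i ^ N) a = 0 := Iff.rfl

theorem pow_apply_eq_zero_of_le {g : AddMonoid.End A} {a : A} {N M : ℕ} (h : (g ^ N) a = 0)
    (hNM : N ≤ M) : (g ^ M) a = 0 := by
  obtain ⟨d, rfl⟩ := Nat.exists_eq_add_of_le hNM
  rw [add_comm, pow_add, endMul_apply, h, map_zero]

/-- equivariance passes to powers -/
theorem map_pow_apply (π : A →+ B) (g : AddMonoid.End A) (g' : AddMonoid.End B)
    (h : ∀ a, π (g a) = g' (π a)) (N : ℕ) (a : A) : π ((g ^ N) a) = (g' ^ N) (π a) := by
  induction N generalizing a with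
  | zero => simp
  | succ N ih => rw [pow_succ, pow_succ, endMul_apply, endMul_apply, ih, h]

/-- an endomorphism commuting with the family preserves the generalised kernel -/
theorem apply_mem_gker {f : ι → AddMonoid.End A} (g : AddMonoid.End A)
    (hg : ∀ i, Commute g (f i)) {a : A} (ha : a ∈ gker f) : g a ∈ gker f := by
  intro i
  obtain ⟨N, hN⟩ := ha i
  refine ⟨N, ?_⟩
  have h : f i ^ N * g = g * f i ^ N := ((hg i).pow_right N).eq.symm
  have h2 := congrArg (fun e : AddMonoid.End A => e a) h
  simp only [endMul_apply] at h2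
  rw [h2, hN, map_zero]

/-- an equivariant map sends the generalised kernel into the generalised kernel -/
theorem map_mem_gker (π : A →+ B) (fA : ι → AddMonoid.End A) (fB : ι → AddMonoid.End B)
    (h : ∀ i a, π (fA i a) = fB i (π a)) {a : A} (ha : a ∈ gker fA) : π a ∈ gker fB := by
  intro i
  obtain ⟨N, hN⟩ := ha i
  exact ⟨N, by rw [← map_pow_apply π _ _ (h i), hN, map_zero]⟩

/-- an equivariant injection reflects the generalised kernel -/
theorem mem_gker_of_map_mem (π : A →+ B) (hπ : Function.Injective π) (fA : ι → AddMonoid.End A)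
    (fB : ι → AddMonoid.End B) (h : ∀ i a, π (fA i a) = fB i (π a)) {a : A}
    (ha : π a ∈ gker fB) : a ∈ gker fA := by
  intro i
  obtain ⟨N, hN⟩ := ha i
  refine ⟨N, hπ ?_⟩
  rw [map_pow_apply π _ _ (h i), hN, map_zero]

/-- In a finite monoid some positive power of any element is idempotent. -/
theorem exists_idem_pow {Mo : Type*} [Monoid Mo] [Finite Mo] (g : Mo) :
    ∃ m : ℕ, 0 < m ∧ g ^ m * g ^ m = g ^ m := by
  obtain ⟨i, j, hij, h⟩ := Finite.exists_ne_map_eq_of_infinite (fun N : ℕ => g ^ N)
  wlog hlt : i < j generalizing i j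
  · exact this j i hij.symm h.symm (lt_of_le_of_ne (not_lt.mp hlt) hij.symm)
  obtain ⟨d, rfl⟩ := Nat.exists_eq_add_of_lt hlt
  -- `g ^ i = g ^ (i + (d + 1))`
  have hstep : ∀ t : ℕ, g ^ (i + t * (d + 1)) = g ^ i := by
    intro t
    induction t with
    | zero => simp
    | succ t ih =>
      have h' : g ^ i = g ^ (i + d + 1) := h
      calc g ^ (i + (t + 1) * (d + 1)) = g ^ (i + d + 1) * g ^ (t * (d + 1)) := by
            rw [← pow_add]; congr 1; ring
        _ = g ^ i * g ^ (t * (d + 1)) := by rw [← h']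
        _ = g ^ (i + t * (d + 1)) := by rw [← pow_add]
        _ = g ^ i := ih
  refine ⟨(i + 1) * (d + 1), Nat.mul_pos (Nat.succ_pos _) (Nat.succ_pos _), ?_⟩
  -- `m = (i + 1) (d + 1) = i + r`
  obtain ⟨r, hr⟩ : ∃ r, (i + 1) * (d + 1) = i + r := ⟨i * d + d + 1, by ring⟩
  calc g ^ ((i + 1) * (d + 1)) * g ^ ((i + 1) * (d + 1))
      = g ^ (i + (i + 1) * (d + 1)) * g ^ r := by
        rw [← pow_add, ← pow_add]; congr 1; rw [hr]; ring
    _ = g ^ i * g ^ r := by rw [hstep]
    _ = g ^ ((i + 1) * (d + 1)) := by rw [← pow_add, hr]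

theorem idem_pow {Mo : Type*} [Monoid Mo] {e : Mo} (he : e * e = e) (N : ℕ) (hN : 0 < N) :
    e ^ N = e := by
  induction N with
  | zero => exact absurd hN (lt_irrefl 0)
  | succ N ih =>
    rcases Nat.eq_zero_or_pos N with rfl | hN'
    · simp
    · rw [pow_succ, ih hN', he]

section surj

variable [Finite A] (π : A →+ B) (hπ : Function.Surjective π) (fA : ι → AddMonoid.End A)
  (fB : ι → AddMonoid.End B) (hcomm : ∀ i j, Commute (fA i) (fA j))
  (h : ∀ i a, π (fA i a) = fB i (π a))

include hπ h in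
/-- one operator: the idempotent power kills the generalised kernel downstairs -/
theorem idem_kills (i : ι) {m : ℕ} (hm : 0 < m) (he : fA i ^ m * fA i ^ m = fA i ^ m) {b : B}
    {N : ℕ} (hb : (fB i ^ N) b = 0) : (fB i ^ m) b = 0 := by
  have heB : fB i ^ m * fB i ^ m = fB i ^ m := by
    refine AddMonoidHom.ext fun b' => ?_
    obtain ⟨a, rfl⟩ := hπ b'
    show (fB i ^ m) ((fB i ^ m) (π a)) = (fB i ^ m) (π a)
    rw [← map_pow_apply π _ _ (h i), ← map_pow_apply π _ _ (h i),
      ← endMul_apply, he]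
  have h1 : (fB i ^ m) ^ (N + 1) = fB i ^ m := idem_pow heB _ (Nat.succ_pos N)
  rw [← h1, ← pow_mul]
  refine pow_apply_eq_zero_of_le hb ?_
  calc N ≤ 1 * (N + 1) := by omega
    _ ≤ m * (N + 1) := Nat.mul_le_mul_right _ hm

include hπ hcomm h in
theorem exists_lift_finset {b : B} (hb : b ∈ gker fB) (s : Finset ι) :
    ∃ a, π a = b ∧ ∀ i ∈ s, ∃ N : ℕ, (fA i ^ N) a = 0 := by
  classical
  induction s using Finset.induction_on with
  | empty =>
    obtain ⟨a, ha⟩ := hπ b
    exact ⟨a, ha, fun i hi => absurd hi (Finset.notMem_empty i)⟩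
  | insert j s _ ih =>
    obtain ⟨a, ha, has⟩ := ih
    have : Finite (AddMonoid.End A) := by
      show Finite (A →+ A)
      exact Finite.of_injective (fun g : A →+ A => (g : A → A)) DFunLike.coe_injective
    obtain ⟨m, hm, he⟩ := exists_idem_pow (fA j)
    obtain ⟨Nb, hNb⟩ := hb j
    refine ⟨a - (fA j ^ m) a, ?_, ?_⟩
    · rw [map_sub, map_pow_apply π _ _ (h j), ha, idem_kills π hπ fA fB h j hm he hNb, sub_zero]
    · intro i hi
      rcases Finset.mem_insert.mp hi with rfl | hi
      · refine ⟨m, ?_⟩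
        rw [map_sub, ← endMul_apply, he, sub_self]
      · obtain ⟨N, hN⟩ := has i hi
        refine ⟨N, ?_⟩
        have hc : fA i ^ N * fA j ^ m = fA j ^ m * fA i ^ N :=
          ((hcomm i j).pow_pow N m).eq
        rw [map_sub, hN, ← endMul_apply, hc, endMul_apply, hN, map_zero,
          sub_zero]

include hπ hcomm h in
/-- **An equivariant surjection is surjective on the `m`-parts.** -/
theorem exists_mem_gker_map_eq {b : B} (hb : b ∈ gker fB) : ∃ a ∈ gker fA, π a = b := by
  classical
  have := Fintype.ofFinite A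
  -- for each `a ∉ gker` choose a witness index
  have hw : ∀ a : A, a ∉ gker fA → ∃ i, ∀ N : ℕ, (fA i ^ N) a ≠ 0 := by
    intro a ha
    rw [mem_gker] at ha
    push Not at ha
    exact ha
  rcases isEmpty_or_nonempty ι with hι | ⟨⟨i₀⟩⟩
  · obtain ⟨a, ha⟩ := hπ b
    exact ⟨a, fun i => (hι.false i).elim, ha⟩
  let w : A → ι := fun a => if ha : a ∈ gker fA then i₀ else (hw a ha).choose
  obtain ⟨a, ha, has⟩ := exists_lift_finset π hπ fA fB hcomm h hb (Finset.univ.image w)
  refine ⟨a, ?_, ha⟩
  by_contra hna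
  obtain ⟨N, hN⟩ := has (w a) (Finset.mem_image_of_mem w (Finset.mem_univ a))
  have hwa : w a = (hw a hna).choose := dif_neg hna
  rw [hwa] at hN
  exact (hw a hna).choose_spec N hN

end surj

/-- An automorphism of order prime to the exponent: generalised kernel of `g - 1` = fixed points. -/
theorem eq_of_pow_sub_one_apply_eq_zero (g : AddMonoid.End A) {h e : ℕ} (hg : g ^ h = 1)
    (hcop : Nat.Coprime h e) {a : A} (hea : e • a = 0) {N : ℕ} (ha : ((g - 1) ^ N) a = 0) :
    g a = a := by
  -- descending induction: `(g - 1)^(N+1) a = 0 → (g - 1)^N a = 0` for `N ≥ 1`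
  have key : ∀ b : A, e • b = 0 → (g - 1) ((g - 1) b) = 0 → (g - 1) b = 0 := by
    intro b heb hb
    set c := (g - 1) b with hc
    have hgc : g c = c := by
      have : (g - 1) c = g c - c := rfl
      rw [this] at hb
      exact sub_eq_zero.mp hb
    have hgb : g b = b + c := by
      have : (g - 1) b = g b - b := rfl
      rw [hc, this]; abel
    have hpow : ∀ t : ℕ, (g ^ t) b = b + t • c := by
      intro t
      induction t with
      | zero => simp
      | succ t ih =>
        rw [pow_succ', endMul_apply, ih, map_add, map_nsmul, hgc, hgb, succ_nsmul]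
        abel
    have h1 := hpow h
    rw [hg] at h1
    have h2 : h • c = 0 := by
      have : b = b + h • c := h1
      exact (left_eq_add.mp this)
    have h3 : e • c = 0 := by rw [hc, ← map_nsmul, heb, map_zero]
    obtain ⟨x, y, hxy⟩ : ∃ x y : ℤ, (h : ℤ) * x + (e : ℤ) * y = 1 := by
      have := Int.gcd_eq_gcd_ab h e
      have hc1 : Int.gcd (h : ℤ) (e : ℤ) = 1 := by
        rw [Int.gcd_natCast_natCast]; exact hcop
      exact ⟨_, _, by rw [← this, hc1]; rfl⟩
    have : (1 : ℤ) • c = 0 := by
      rw [← hxy, add_smul, mul_comm, mul_smul, natCast_zsmul, h2, smul_zero, mul_comm, mul_smul,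
        natCast_zsmul, h3, smul_zero, add_zero]
    simpa using this
  have hdesc : ∀ N : ℕ, ((g - 1) ^ (N + 1)) a = 0 → (g - 1) a = 0 := by
    intro N
    induction N with
    | zero => intro h0; simpa using h0
    | succ N ih =>
      intro h0
      apply ih
      have hb : e • ((g - 1) ^ N) a = 0 := by rw [← map_nsmul, hea, map_zero]
      have := key (((g - 1) ^ N) a) hb (by
        rw [← endMul_apply, ← endMul_apply, mul_assoc, ← pow_succ',
          ← pow_succ']
        exact h0)
      rw [pow_succ', endMul_apply]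
      exact this
  have h1 : (g - 1) a = 0 := by
    rcases N with _ | N
    · have : a = 0 := by simpa using ha
      rw [this, map_zero]
    · exact hdesc N ha
  have : (g - 1) a = g a - a := rfl
  rw [this] at h1
  exact sub_eq_zero.mp h1

end Fermat.Agent.S43.Exp
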