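/-
Row 37 (S43), block EXP (helper200): the LOCALISED change of exponent, abstract form (Mathlib only).

`Ext A B C n k` : the abstract shape of `0 → W k --up'--> W (n k) --dn--> W n → 0` and
`0 → W n --up--> W (n k) --dn'--> W k → 0` (`A = W (n k)`, `B = W n`, `C = W k`), as delivered by
`Exp/Basic`, `Exp/Sym`, `Exp/Surj`, together with a commuting family of operators on the three groups, compatible with
the four maps.  All the statements below are about the `m`-parts `gker fA`, `gker fB`, `gker fC`.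
-/
import Fermat.Agent.S43.Exp.Loc

set_option autoImplicit false

namespace Fermat.Agent.S43.Exp

/-- The abstract change of exponent with operators. -/
structure Ext (A B C : Type*) [AddCommGroup A] [AddCommGroup B] [AddCommGroup C] (ι : Type*)
    (n k : ℕ) where
  dn : A →+ B
  up : B →+ A
  dn' : A →+ C
  up' : C →+ A
  dn_surj : Function.Surjective dn
  dn'_surj : Function.Surjective dn'
  up_inj : Function.Injective up
  up'_inj : Function.Injective up'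
  up_dn : ∀ y, up (dn y) = k • y
  up'_dn' : ∀ y, up' (dn' y) = n • y
  tors : ∀ y : A, n • y = 0 → ∃ x, up x = y
  tors' : ∀ y : A, k • y = 0 → ∃ x, up' x = y
  nB : ∀ x : B, n • x = 0
  kC : ∀ x : C, k • x = 0
  fA : ι → AddMonoid.End A
  fB : ι → AddMonoid.End B
  fC : ι → AddMonoid.End C
  comm : ∀ i j, Commute (fA i) (fA j)
  dn_f : ∀ i a, dn (fA i a) = fB i (dn a)
  up_f : ∀ i b, up (fB i b) = fA i (up b)
  dn'_f : ∀ i a, dn' (fA i a) = fC i (dn' a)
  up'_f : ∀ i c, up' (fC i c) = fA i (up' c)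

namespace Ext

variable {A B C : Type*} [AddCommGroup A] [AddCommGroup B] [AddCommGroup C] {ι : Type*} {n k : ℕ}
  (E : Ext A B C ι n k)

theorem dn_mem {y : A} (hy : y ∈ gker E.fA) : E.dn y ∈ gker E.fB :=
  map_mem_gker E.dn E.fA E.fB E.dn_f hy

theorem dn'_mem {y : A} (hy : y ∈ gker E.fA) : E.dn' y ∈ gker E.fC :=
  map_mem_gker E.dn' E.fA E.fC E.dn'_f hy

theorem up_mem {x : B} (hx : x ∈ gker E.fB) : E.up x ∈ gker E.fA :=
  map_mem_gker E.up E.fB E.fA E.up_f hx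

theorem up'_mem {x : C} (hx : x ∈ gker E.fC) : E.up' x ∈ gker E.fA :=
  map_mem_gker E.up' E.fC E.fA E.up'_f hx

theorem mem_of_up_mem {x : B} (hx : E.up x ∈ gker E.fA) : x ∈ gker E.fB :=
  mem_gker_of_map_mem E.up E.up_inj E.fB E.fA E.up_f hx

theorem mem_of_up'_mem {x : C} (hx : E.up' x ∈ gker E.fA) : x ∈ gker E.fC :=
  mem_gker_of_map_mem E.up' E.up'_inj E.fC E.fA E.up'_f hx

/-- **T1**: `dn` is onto on the `m`-parts. -/
theorem loc_dn_surj [Finite A] {x : B} (hx : x ∈ gker E.fB) : ∃ z ∈ gker E.fA, E.dn z = x :=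
  exists_mem_gker_map_eq E.dn E.dn_surj E.fA E.fB E.comm E.dn_f hx

theorem loc_dn'_surj [Finite A] {x : C} (hx : x ∈ gker E.fC) : ∃ z ∈ gker E.fA, E.dn' z = x :=
  exists_mem_gker_map_eq E.dn' E.dn'_surj E.fA E.fC E.comm E.dn'_f hx

/-- **T2**: the `n`-torsion of the `m`-part of `A` is `up` of the `m`-part of `B`. -/
theorem loc_tors {y : A} (hy : y ∈ gker E.fA) (hn : n • y = 0) : ∃ x ∈ gker E.fB, E.up x = y := by
  obtain ⟨x, rfl⟩ := E.tors y hn
  exact ⟨x, E.mem_of_up_mem hy, rfl⟩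

theorem loc_tors' {y : A} (hy : y ∈ gker E.fA) (hk : k • y = 0) :
    ∃ x ∈ gker E.fC, E.up' x = y := by
  obtain ⟨x, rfl⟩ := E.tors' y hk
  exact ⟨x, E.mem_of_up'_mem hy, rfl⟩

/-- **T3**: `A_m[n] = k • A_m`. -/
theorem loc_div [Finite A] {y : A} (hy : y ∈ gker E.fA) (hn : n • y = 0) :
    ∃ z ∈ gker E.fA, y = k • z := by
  obtain ⟨x, hx, rfl⟩ := E.loc_tors hy hn
  obtain ⟨z, hz, rfl⟩ := E.loc_dn_surj hx
  exact ⟨z, hz, E.up_dn z⟩

theorem loc_div' [Finite A] {y : A} (hy : y ∈ gker E.fA) (hk : k • y = 0) :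
    ∃ z ∈ gker E.fA, y = n • z := by
  obtain ⟨x, hx, rfl⟩ := E.loc_tors' hy hk
  obtain ⟨z, hz, rfl⟩ := E.loc_dn'_surj hx
  exact ⟨z, hz, E.up'_dn' z⟩

/-- **T4**: `up x = k • z` with `z` in the `m`-part, `dn z = x`. -/
theorem loc_up_div [Finite A] {x : B} (hx : x ∈ gker E.fB) :
    ∃ z ∈ gker E.fA, E.dn z = x ∧ E.up x = k • z := by
  obtain ⟨z, hz, rfl⟩ := E.loc_dn_surj hx
  exact ⟨z, hz, rfl, E.up_dn z⟩

theorem loc_up'_div [Finite A] {x : C} (hx : x ∈ gker E.fC) :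
    ∃ z ∈ gker E.fA, E.dn' z = x ∧ E.up' x = n • z := by
  obtain ⟨z, hz, rfl⟩ := E.loc_dn'_surj hx
  exact ⟨z, hz, rfl, E.up'_dn' z⟩

/-- **T5**: the kernel of `dn` on the `m`-part is `n • A_m` (so `A_m / n A_m ≃ B_m`). -/
theorem loc_ker_dn [Finite A] {y : A} (hy : y ∈ gker E.fA) (h0 : E.dn y = 0) :
    ∃ z ∈ gker E.fA, y = n • z := by
  apply E.loc_div' hy
  rw [← E.up_dn, h0, map_zero]

theorem loc_ker_dn' [Finite A] {y : A} (hy : y ∈ gker E.fA) (h0 : E.dn' y = 0) :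
    ∃ z ∈ gker E.fA, y = k • z := by
  apply E.loc_div hy
  rw [← E.up'_dn', h0, map_zero]

theorem dn_nsmul (z : A) : E.dn (n • z) = 0 := by rw [map_nsmul, E.nB]

theorem dn'_nsmul (z : A) : E.dn' (k • z) = 0 := by rw [map_nsmul, E.kC]

/-- the kernel of `dn` on the `m`-part is `up'` of the `m`-part of `C` -/
theorem loc_ker_dn_up' {y : A} (hy : y ∈ gker E.fA) (h0 : E.dn y = 0) :
    ∃ x ∈ gker E.fC, E.up' x = y := by
  apply E.loc_tors' hy
  rw [← E.up_dn, h0, map_zero]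

theorem dn_up' (x : C) : E.dn (E.up' x) = 0 := by
  obtain ⟨z, rfl⟩ := E.dn'_surj x
  rw [E.up'_dn', E.dn_nsmul]

/-- **T6**: `#A_m = #B_m * #C_m`. -/
theorem card_loc [Finite A] :
    Nat.card (gker E.fA) = Nat.card (gker E.fB) * Nat.card (gker E.fC) := by
  -- the restriction of `dn` to the `m`-parts
  let φ : gker E.fA →+ gker E.fB :=
    (E.dn.comp (gker E.fA).subtype).codRestrict (gker E.fB) fun y => E.dn_mem y.2
  have hφ : Function.Surjective φ := by
    rintro ⟨x, hx⟩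
    obtain ⟨z, hz, hzx⟩ := E.loc_dn_surj hx
    exact ⟨⟨z, hz⟩, Subtype.ext hzx⟩
  let ψ : gker E.fC → φ.ker := fun x =>
    ⟨⟨E.up' x.1, E.up'_mem x.2⟩, by
      rw [AddMonoidHom.mem_ker]
      exact Subtype.ext (E.dn_up' x.1)⟩
  have hψ : Function.Bijective ψ := by
    constructor
    · intro x x' hxx
      have h1 : E.up' x.1 = E.up' x'.1 := congrArg (fun t : φ.ker => (t.1.1 : A)) hxx
      exact Subtype.ext (E.up'_inj h1)
    · rintro ⟨⟨y, hy⟩, hy0⟩
      have h0 : E.dn y = 0 := congrArg Subtype.val (AddMonoidHom.mem_ker.mp hy0)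
      obtain ⟨x, hx, hxy⟩ := E.loc_ker_dn_up' hy h0
      exact ⟨⟨x, hx⟩, Subtype.ext (Subtype.ext hxy)⟩
  have h1 : Nat.card (gker E.fA) = Nat.card φ.ker * Nat.card (gker E.fB) := by
    have h2 := AddSubgroup.card_eq_card_quotient_mul_card_addSubgroup φ.ker
    have h3 : Nat.card (gker E.fA ⧸ φ.ker) = Nat.card (gker E.fB) :=
      Nat.card_congr (QuotientAddGroup.quotientKerEquivOfSurjective φ hφ).toEquiv
    rw [h2, h3, mul_comm]
  rw [h1, ← Nat.card_congr (Equiv.ofBijective ψ hψ), mul_comm]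

end Ext

end Fermat.Agent.S43.Exp
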