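/-
Row 37 (S43), block EXP (helper200): abstract form, continued (Mathlib only).  The family `f i = g i - a i` attached to a
commuting family of operators `g i` and integers `a i`, and the package `Ext` built from raw operators.
-/
import Fermat.Agent.S43.Exp.Tower

set_option autoImplicit false

namespace Fermat.Agent.S43.Exp

variable {A B C : Type*} [AddCommGroup A] [AddCommGroup B] [AddCommGroup C] {ι : Type*}

/-- `g i - a i`. -/
def shiftA (g : ι → AddMonoid.End A) (a : ι → ℤ) (i : ι) : AddMonoid.End A :=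
  g i - a i • (1 : AddMonoid.End A)

theorem shiftA_apply (g : ι → AddMonoid.End A) (a : ι → ℤ) (i : ι) (x : A) :
    shiftA g a i x = g i x - a i • x := rfl

theorem commute_shiftA (g : ι → AddMonoid.End A) (a : ι → ℤ) (hc : ∀ i j, Commute (g i) (g j))
    (i j : ι) : Commute (shiftA g a i) (shiftA g a j) := by
  unfold shiftA
  refine Commute.sub_left (Commute.sub_right (hc i j) ?_) (Commute.sub_right ?_ ?_)
  · exact (Commute.one_right _).smul_right _
  · exact (Commute.one_left _).smul_left _
  · exact ((Commute.one_left _).smul_left _).smul_right _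

theorem commute_shiftA_of (g : ι → AddMonoid.End A) (a : ι → ℤ) (e : AddMonoid.End A)
    (hc : ∀ i, Commute e (g i)) (i : ι) : Commute e (shiftA g a i) := by
  unfold shiftA
  exact Commute.sub_right (hc i) ((Commute.one_right _).smul_right _)

theorem map_shiftA (π : A →+ B) (gA : ι → AddMonoid.End A) (gB : ι → AddMonoid.End B) (a : ι → ℤ)
    (h : ∀ i x, π (gA i x) = gB i (π x)) (i : ι) (x : A) :
    π (shiftA gA a i x) = shiftA gB a i (π x) := by
  rw [shiftA_apply, shiftA_apply, map_sub, map_zsmul, h]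

/-- The `m`-part for the operators `g i` and the eigenvalues `a i`. -/
def locA (g : ι → AddMonoid.End A) (a : ι → ℤ) : AddSubgroup A := gker (shiftA g a)

theorem mem_locA {g : ι → AddMonoid.End A} {a : ι → ℤ} {x : A} :
    x ∈ locA g a ↔ ∀ i, ∃ N : ℕ, ((g i - a i • (1 : AddMonoid.End A)) ^ N) x = 0 := Iff.rfl

/-- an operator commuting with the family preserves the `m`-part -/
theorem apply_mem_locA {g : ι → AddMonoid.End A} {a : ι → ℤ} (e : AddMonoid.End A)
    (hc : ∀ i, Commute e (g i)) {x : A} (hx : x ∈ locA g a) : e x ∈ locA g a :=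
  apply_mem_gker e (commute_shiftA_of g a e hc) hx

/-- The raw data of a change of exponent with operators. -/
structure Raw (A B C : Type*) [AddCommGroup A] [AddCommGroup B] [AddCommGroup C] (ι : Type*)
    (n k : ℕ) where
  dn : A →+ B
  up : B →+ A
  dn' : A →+ C
  up' : C →+ A
  dn_surj : Function.Surjective dn
  dn'_surj : Function.Surjective dn'
  up_inj : Function.Injective up
  up'_inj : Function.Injective up'
  up_dn : ∀ y, up (dn y) = k • y
  up'_dn' : ∀ y, up' (dn' y) = n • y
  tors : ∀ y : A, n • y = 0 → ∃ x, up x = y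
  tors' : ∀ y : A, k • y = 0 → ∃ x, up' x = y
  nB : ∀ x : B, n • x = 0
  kC : ∀ x : C, k • x = 0
  gA : ι → AddMonoid.End A
  gB : ι → AddMonoid.End B
  gC : ι → AddMonoid.End C
  comm : ∀ i j, Commute (gA i) (gA j)
  dn_g : ∀ i a, dn (gA i a) = gB i (dn a)
  up_g : ∀ i b, up (gB i b) = gA i (up b)
  dn'_g : ∀ i a, dn' (gA i a) = gC i (dn' a)
  up'_g : ∀ i c, up' (gC i c) = gA i (up' c)

/-- The package `Ext` for the shifted family. -/
def Raw.ext {n k : ℕ} (R : Raw A B C ι n k) (a : ι → ℤ) : Ext A B C ι n k where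
  dn := R.dn
  up := R.up
  dn' := R.dn'
  up' := R.up'
  dn_surj := R.dn_surj
  dn'_surj := R.dn'_surj
  up_inj := R.up_inj
  up'_inj := R.up'_inj
  up_dn := R.up_dn
  up'_dn' := R.up'_dn'
  tors := R.tors
  tors' := R.tors'
  nB := R.nB
  kC := R.kC
  fA := shiftA R.gA a
  fB := shiftA R.gB a
  fC := shiftA R.gC a
  comm := commute_shiftA R.gA a R.comm
  dn_f := map_shiftA R.dn R.gA R.gB a R.dn_g
  up_f := map_shiftA R.up R.gB R.gA a R.up_g
  dn'_f := map_shiftA R.dn' R.gA R.gC a R.dn'_g
  up'_f := map_shiftA R.up' R.gC R.gA a R.up'_g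

end Fermat.Agent.S43.Exp
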