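/-
Row 37 (S43), block EXP (helper200): `dn : W F (n * k) → W F n` is SURJECTIVE for every function field of one
variable `F` over `ℚ̄` (divisibility of `Pic⁰`, `Lib/PicDiv` of helper49), and its consequences:

* `dn_surjective`;
* `exists_nsmul_eq_of_nsmul_eq_zero` : `y ∈ W(n k)`, `n • y = 0`  ⟹  `y ∈ k • W(n k)`
  (`W(n k)` is "free over `ℤ / n k`");
* `exists_up_dn` : every `x ∈ W n` satisfies `up x = k • z` for some `z ∈ W(n k)` with `dn z = x`.
-/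
import Fermat.Agent.S43.Exp.Basic
import Fermat.Agent.Lib.PicDiv.Main
import Fermat.Agent.NV2.Abs.Kummer

set_option autoImplicit false

noncomputable section

namespace Fermat.Agent.S43.Exp

open AlgebraicCurve Fermat.Agent.S24 Fermat.Agent.S24.FF Fermat.Agent.S27 Fermat.Agent.NV2
open Fermat.Agent.S48.BB.M (W kum IsKum)

variable {F : Type*} [Field F] [Algebra Kbar F] [IsFF1 Kbar F] [NonConst Kbar F]

/-- A Kummer unit of exponent `n` is, up to an `n`-th power, a Kummer unit of exponent `n k`. -/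
theorem exists_mul_pow_mem_kum {n : ℕ} (hn : 0 < n) {k : ℕ} (hk : 0 < k) (u : Fˣ)
    (hu : u ∈ kum F n) : ∃ s : Fˣ, u * s ^ n ∈ kum F (n * k) := by
  have hu0 : (u : F) ≠ 0 := Units.ne_zero _
  obtain ⟨D0, hD0⟩ := exists_isDivOf (K := Kbar) (u : F) hu0
  have hkk : ∀ v : Place Kbar F, (n : ℤ) ∣ v.ord (u : F) := hu
  let D : Divisor Kbar F := D0.mapRange (fun a : ℤ => a / n) (by simp)
  have hDv : ∀ v, (n : ℤ) * D v = D0 v := by
    intro v
    show (n : ℤ) * (D0 v / n) = D0 v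
    rw [hD0.2 v]
    exact Int.mul_ediv_cancel' (hkk v)
  have hnD : n • D = D0 := by
    ext v
    rw [Finsupp.smul_apply, nsmul_eq_mul, hDv]
  have hdeg : Divisor.degree D = 0 := by
    have h1 : Divisor.degree (n • D) = 0 := by rw [hnD]; exact hD0.degree
    rw [map_nsmul, nsmul_eq_mul] at h1
    rcases mul_eq_zero.mp h1 with h | h
    · exact absurd h (by exact_mod_cast hn.ne')
    · exact h
  obtain ⟨d, hd⟩ := Fermat.Agent.Lib.PicDiv.exists_nsmul_eq Kbar F k hk (cls D)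
  obtain ⟨D', hD', rfl⟩ := cls_surjective d
  rw [← cls_nsmul' hD', cls_eq_cls_iff (by rw [map_nsmul, hD', smul_zero]) hdeg] at hd
  obtain ⟨s, hs0, hs⟩ := hd
  refine ⟨Units.mk0 s hs0, ?_⟩
  show IsKum F (n * k) ((u * (Units.mk0 s hs0) ^ n : Fˣ) : F)
  intro v
  rw [Units.val_mul, Units.val_pow_eq_pow_val, Units.val_mk0, v.ord_mul hu0 (pow_ne_zero _ hs0),
    FF.ord_pow, ← hs v, ← hD0.2 v, ← hDv v, Finsupp.sub_apply, Finsupp.smul_apply, nsmul_eq_mul]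
  exact ⟨D' v, by push_cast; ring⟩

theorem dn_surjective {n : ℕ} (hn : 0 < n) {k : ℕ} (hk : 0 < k) :
    Function.Surjective (dn (F := F) n k) := by
  intro x
  obtain ⟨u, rfl⟩ := Fermat.Agent.S48.BB.M.cls_surjective x
  obtain ⟨s, hs⟩ := exists_mul_pow_mem_kum hn hk (u : Fˣ) u.2
  refine ⟨Fermat.Agent.S48.BB.M.cls ⟨_, hs⟩, ?_⟩
  rw [dn_cls]
  have h1 : (⟨(u : Fˣ) * s ^ n, kum_mul_le n k hs⟩ : kum F n) =
      u * ⟨s ^ n, Fermat.Agent.S48.BB.M.pows_le_kum F n ⟨s, rfl⟩⟩ := rfl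
  rw [h1, Fermat.Agent.S48.BB.M.cls_mul]
  have h2 : Fermat.Agent.S48.BB.M.cls
      (⟨s ^ n, Fermat.Agent.S48.BB.M.pows_le_kum F n ⟨s, rfl⟩⟩ : kum F n) = 0 := by
    rw [Fermat.Agent.S48.BB.M.cls_eq_zero_iff]
    exact ⟨s, rfl⟩
  rw [h2]
  exact add_zero (Fermat.Agent.S48.BB.M.cls u : W F n)

/-- `W(n k)[n] = k • W(n k)`. -/
theorem exists_nsmul_eq_of_nsmul_eq_zero {n : ℕ} (hn : 0 < n) {k : ℕ} (hk : 0 < k)
    (y : W F (n * k)) (hy : n • y = 0) : ∃ z : W F (n * k), y = k • z := by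
  obtain ⟨x, rfl⟩ := exists_up_eq_of_nsmul_eq_zero hn hk y hy
  obtain ⟨z, rfl⟩ := dn_surjective hn hk x
  exact ⟨z, up_dn n k z⟩

/-- every `x ∈ W n` is `dn z`, and then `up x = k • z`. -/
theorem exists_up_dn {n : ℕ} (hn : 0 < n) {k : ℕ} (hk : 0 < k) (x : W F n) :
    ∃ z : W F (n * k), dn n k z = x ∧ up n k x = k • z := by
  obtain ⟨z, rfl⟩ := dn_surjective hn hk x
  exact ⟨z, rfl, up_dn n k z⟩

end Fermat.Agent.S43.Exp

end
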