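/-
Row 37 (S43), block EXP (helper200): the SYMMETRIC half of the API of `Exp/Basic.lean`, so that nobody has to transport
along `n * k = k * n`.  For `N = n * k`:

  `dn  n k : W N → W n`, `[u] ↦ [u]`        `up  n k : W n → W N`, `[u] ↦ [u ^ k]`     (`Exp/Basic.lean`)
  `dn' n k : W N → W k`, `[u] ↦ [u]`        `up' n k : W k → W N`, `[u] ↦ [u ^ n]`

  `0 → W k --up'--> W N --dn--> W n → 0`   and   `0 → W n --up--> W N --dn'--> W k → 0`   are exact
  (surjectivity: `Exp/Surj.lean`).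
-/
import Fermat.Agent.S43.Exp.Basic

set_option autoImplicit false

noncomputable section

namespace Fermat.Agent.S43.Exp

open AlgebraicCurve Fermat.Agent.S24 Fermat.Agent.S48.BB.M

variable {F : Type*} [Field F] [Algebra Kbar F]

theorem kum_mul_le' (n k : ℕ) : kum F (n * k) ≤ kum F k := by
  rw [mul_comm]
  exact kum_mul_le k n

/-- `[u] ↦ [u]`: multiplication by `n`, `J[n k] → J[k]`. -/
def dn' (n k : ℕ) : W F (n * k) →+ W F k :=
  MonoidHom.toAdditive <|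
    QuotientGroup.map _ _ (Subgroup.inclusion (kum_mul_le' (F := F) n k)) (by
      rintro ⟨u, hu⟩ ⟨w, hw⟩
      refine ⟨w ^ n, ?_⟩
      show (w ^ n) ^ k = u
      rw [← pow_mul]
      exact hw)

theorem dn'_cls {n k : ℕ} (u : kum F (n * k)) :
    dn' n k (cls u) = cls (⟨(u : Fˣ), kum_mul_le' n k u.2⟩ : kum F k) := rfl

theorem dn'_up' (n k : ℕ) (x : W F k) : dn' n k (up' n k x) = n • x := by
  obtain ⟨u, rfl⟩ := cls_surjective x
  rw [up'_cls, dn'_cls, ← cls_pow]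
  rfl

theorem up'_dn' (n k : ℕ) (y : W F (n * k)) : up' n k (dn' n k y) = n • y := by
  obtain ⟨u, rfl⟩ := cls_surjective y
  rw [dn'_cls, up'_cls, ← cls_pow]
  rfl

theorem dn'_up (n k : ℕ) (x : W F n) : dn' n k (up n k x) = 0 := by
  obtain ⟨u, rfl⟩ := cls_surjective x
  rw [up_cls, dn'_cls, cls_eq_zero_iff]
  exact ⟨u, rfl⟩

/-- `W(n k)[k] = up' (W k)`. -/
theorem exists_up'_eq_of_nsmul_eq_zero {n : ℕ} (hn : 0 < n) {k : ℕ} (hk : 0 < k) (y : W F (n * k))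
    (hy : k • y = 0) : ∃ x : W F k, up' n k x = y := by
  obtain ⟨u, rfl⟩ := cls_surjective y
  rw [← cls_pow, cls_eq_zero_iff] at hy
  obtain ⟨w, hw⟩ := hy
  have hw' : ((u : Fˣ)) ^ k = (w ^ n) ^ k := by
    rw [← pow_mul]
    exact hw.symm
  obtain ⟨c, hc⟩ := exists_const_mul_of_pow_eq hk n hn hw'
  have hu : (u : Fˣ) = (c * w) ^ n := by rw [mul_pow, hc]
  have hcw : c * w ∈ kum F k := by
    show IsKum F k ((c * w : Fˣ) : F)
    apply isKum_of_pow (n := k) (k := n) hn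
    rw [← Units.val_pow_eq_pow_val, ← hu, mul_comm]
    exact u.2
  refine ⟨cls ⟨c * w, hcw⟩, ?_⟩
  rw [up'_cls]
  exact congrArg cls (Subtype.ext hu.symm)

theorem nsmul_up' (n k : ℕ) (x : W F k) : k • up' n k x = 0 := by
  rw [← map_nsmul, nsmul_W, map_zero]

/-- `ker (dn' : W(n k) → W k) = up (W n)`. -/
theorem exists_up_eq_of_dn'_eq_zero (n : ℕ) {k : ℕ} (hk : 0 < k) (y : W F (n * k))
    (hy : dn' n k y = 0) : ∃ x : W F n, up n k x = y := by
  obtain ⟨u, rfl⟩ := cls_surjective y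
  rw [dn'_cls, cls_eq_zero_iff] at hy
  obtain ⟨w, hw⟩ := hy
  have hw' : w ^ k = (u : Fˣ) := hw
  have hwk : w ∈ kum F n := by
    show IsKum F n (w : F)
    apply isKum_of_pow hk
    rw [← Units.val_pow_eq_pow_val, hw']
    exact u.2
  refine ⟨cls ⟨w, hwk⟩, ?_⟩
  rw [up_cls]
  exact congrArg cls (Subtype.ext hw')

theorem dn'_mapW {F' : Type*} [Field F'] [Algebra Kbar F'] {n k : ℕ} (f : Fˣ →* F'ˣ)
    (hf : ∀ u ∈ kum F k, f u ∈ kum F' k)
    (hf' : ∀ u ∈ kum F (n * k), f u ∈ kum F' (n * k)) (y : W F (n * k)) :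
    dn' n k (mapW f hf' y) = mapW f hf (dn' n k y) := by
  obtain ⟨u, rfl⟩ := cls_surjective y
  rw [mapW_cls, dn'_cls, dn'_cls, mapW_cls]

end Fermat.Agent.S43.Exp

end
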