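/-
Row 37 (S43), block EXP (helper200): the CONCRETE localised change of exponent for the Kummer modules `W F n`.

* `Op F`          : a multiplicative operator `φ : Fˣ →* Fˣ` preserving the Kummer units of EVERY exponent
                    (all of `ρ(σ)`, `autW D`, `T_l`, `U_q`, `w`, ... are of this shape: they are `mapW φ _`);
* `Op.act X n`    : the induced endomorphism of `W F n`;
* `loc X a n`     : the `m`-part of `W F n` for the family `X i`, eigenvalues `a i : ℤ`
                    (`= locA (fun i => (X i).act n) a = gker (fun i => (X i).act n - a i • 1)`);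
* `raw X hc ..`   : the abstract package `Exp.Raw` of `Exp/Shift.lean`, so that T1-T6 of `Exp/Tower.lean` apply to
                    `(raw X hn hk hc).ext a`;
* `card_loc_pow`  : `#W(p ^ k)_m = (#W(p)_m) ^ k`.
-/
import Fermat.Agent.S43.Exp.Surj
import Fermat.Agent.S43.Exp.Sym
import Fermat.Agent.S43.Exp.Shift

set_option autoImplicit false

noncomputable section

namespace Fermat.Agent.S43.Exp

open AlgebraicCurve Fermat.Agent.S24 Fermat.Agent.S24.FF Fermat.Agent.S27
open Fermat.Agent.S48.BB.M (W kum IsKum mapW mapW_cls cls cls_surjective nsmul_W)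

/-- A multiplicative operator preserving Kummer units of every exponent. -/
structure Op (F : Type*) [Field F] [Algebra Kbar F] where
  φ : Fˣ →* Fˣ
  mem : ∀ (n : ℕ) (u : Fˣ), u ∈ kum F n → φ u ∈ kum F n

variable {F : Type*} [Field F] [Algebra Kbar F]

/-- The induced endomorphism of the Kummer module. -/
def Op.act (X : Op F) (n : ℕ) : W F n →+ W F n := mapW X.φ (X.mem n)

theorem Op.act_cls (X : Op F) {n : ℕ} (u : kum F n) :
    X.act n (cls u) = cls ⟨X.φ u, X.mem n u u.2⟩ := rfl

theorem Op.dn_act (X : Op F) (n k : ℕ) (y : W F (n * k)) :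
    dn n k (X.act (n * k) y) = X.act n (dn n k y) := dn_mapW X.φ (X.mem n) (X.mem (n * k)) y

theorem Op.dn'_act (X : Op F) (n k : ℕ) (y : W F (n * k)) :
    dn' n k (X.act (n * k) y) = X.act k (dn' n k y) := dn'_mapW X.φ (X.mem k) (X.mem (n * k)) y

theorem Op.up_act (X : Op F) (n k : ℕ) (x : W F n) :
    up n k (X.act n x) = X.act (n * k) (up n k x) := up_mapW X.φ (X.mem n) (X.mem (n * k)) x

theorem Op.up'_act (X : Op F) (n k : ℕ) (x : W F k) :
    up' n k (X.act k x) = X.act (n * k) (up' n k x) := up'_mapW X.φ (X.mem k) (X.mem (n * k)) x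

variable {ι : Type*}

/-- The `m`-part of `W F n`. -/
def loc (X : ι → Op F) (a : ι → ℤ) (n : ℕ) : AddSubgroup (W F n) :=
  locA (A := W F n) (fun i => (X i).act n) a

variable [IsFF1 Kbar F] [NonConst Kbar F]

theorem dn'_surjective {n : ℕ} (hn : 0 < n) {k : ℕ} (hk : 0 < k) :
    Function.Surjective (dn' (F := F) n k) := by
  intro x
  obtain ⟨u, rfl⟩ := cls_surjective x
  obtain ⟨s, hs⟩ := exists_mul_pow_mem_kum hk hn (u : Fˣ) u.2
  have hs' : (u : Fˣ) * s ^ k ∈ kum F (n * k) := by rw [mul_comm n k]; exact hs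
  refine ⟨cls ⟨_, hs'⟩, ?_⟩
  rw [dn'_cls]
  have h1 : (⟨(u : Fˣ) * s ^ k, kum_mul_le' n k hs'⟩ : kum F k) =
      u * ⟨s ^ k, Fermat.Agent.S48.BB.M.pows_le_kum F k ⟨s, rfl⟩⟩ := rfl
  rw [h1, Fermat.Agent.S48.BB.M.cls_mul]
  have h2 : cls (⟨s ^ k, Fermat.Agent.S48.BB.M.pows_le_kum F k ⟨s, rfl⟩⟩ : kum F k) = 0 := by
    rw [Fermat.Agent.S48.BB.M.cls_eq_zero_iff]
    exact ⟨s, rfl⟩
  rw [h2]
  exact add_zero (cls u : W F k)

/-- **The package**: T1-T6 of `Exp/Tower.lean` hold for `A = W (n k)`, `B = W n`, `C = W k`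
(apply them to `(raw X hn hk hc).ext a`). -/
def raw (X : ι → Op F) {n k : ℕ} (hn : 0 < n) (hk : 0 < k)
    (hc : ∀ i j x, (X i).act (n * k) ((X j).act (n * k) x) = (X j).act (n * k) ((X i).act (n * k) x)) :
    Raw (W F (n * k)) (W F n) (W F k) ι n k where
  dn := dn n k
  up := up n k
  dn' := dn' n k
  up' := up' n k
  dn_surj := dn_surjective hn hk
  dn'_surj := dn'_surjective hn hk
  up_inj := up_injective n hn hk
  up'_inj := up'_injective hn k hk
  up_dn := up_dn n k
  up'_dn' := up'_dn' n k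
  tors := fun y hy => exists_up_eq_of_nsmul_eq_zero hn hk y hy
  tors' := fun y hy => exists_up'_eq_of_nsmul_eq_zero hn hk y hy
  nB := nsmul_W
  kC := nsmul_W
  gA := fun i => (X i).act (n * k)
  gB := fun i => (X i).act n
  gC := fun i => (X i).act k
  comm := fun i j => AddMonoidHom.ext fun x => hc i j x
  dn_g := fun i y => (X i).dn_act n k y
  up_g := fun i x => (X i).up_act n k x
  dn'_g := fun i y => (X i).dn'_act n k y
  up'_g := fun i x => (X i).up'_act n k x

/-- `#W(n k)_m = #W(n)_m * #W(k)_m`. -/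
theorem card_loc_mul (X : ι → Op F) (a : ι → ℤ) {n k : ℕ} (hn : 0 < n) (hk : 0 < k)
    (hc : ∀ i j x, (X i).act (n * k) ((X j).act (n * k) x) = (X j).act (n * k) ((X i).act (n * k) x))
    [Finite (W F (n * k))] :
    Nat.card (loc X a (n * k)) = Nat.card (loc X a n) * Nat.card (loc X a k) :=
  ((raw X hn hk hc).ext a).card_loc

/-- **`#W(p ^ k)_m = (#W(p)_m) ^ k`.** -/
theorem card_loc_pow (X : ι → Op F) (a : ι → ℤ) {p : ℕ} (hp : 0 < p)
    (hc : ∀ (n : ℕ) (i j : ι) (x : W F n),
      (X i).act n ((X j).act n x) = (X j).act n ((X i).act n x))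
    (hfin : ∀ k : ℕ, Finite (W F (p ^ k))) (k : ℕ) :
    Nat.card (loc X a (p ^ k)) = Nat.card (loc X a p) ^ k := by
  induction k with
  | zero =>
    have h1 : ∀ z : W F (p ^ 0), z = 0 := fun z => by
      have h2 : (p ^ 0) • z = 0 := nsmul_W z
      have h3 : (p ^ 0) • z = z := one_nsmul z
      rw [← h3, h2]
    have hsub : Subsingleton (loc X a (p ^ 0)) :=
      ⟨fun x y => Subtype.ext (by rw [h1 x.1, h1 y.1])⟩
    rw [pow_zero (Nat.card _)]
    exact Nat.card_unique
  | succ k ih =>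
    have hf : Finite (W F (p ^ k * p)) := hfin (k + 1)
    have h := card_loc_mul X a (pow_pos hp k) hp (hc (p ^ k * p))
    rw [pow_succ, pow_succ, h, ih]

end Fermat.Agent.S43.Exp

end
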