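/-
Row 37 (S43), block EXP (helper200): THE EXPORT FOR GLUE, in the language of `S43/H/LocZ.lean` (helper143):
`LocZ.loc t = {x | every t i is nilpotent on x}`.

`F` any function field of one variable over `ℚ̄`, `N = n * k`; `tA`, `tB`, `tC` families of additive endomorphisms of `W F (n * k)`,
`W F n`, `W F k` (e.g. `T_ℓ - a_ℓ`, `D - 1`, ...), `tA` commuting, compatible with `dn`, `up`, `dn'`, `up'`
(for operators of the form `mapW φ _ - a • id` the compatibilities are `Exp.dn_mapW`, `up_mapW`, `dn'_mapW`, `up'_mapW`).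

With `n = p ^ e`, `k = p` (`p ^ (e + 1) = p ^ e * p` is `rfl`):
* `div_loc`      = field `Z1` of `Glue.Pkg`   (`p ^ e • y = 0 → y ∈ p • W_m`);
* `div'_loc`     = field `Z2` of `Glue.Pkg`   (`p • y = 0 → y ∈ p ^ e • W_m`);
* `dn'_surj_loc`, `ker_dn'_loc` = fields `π_surj`, `ker_π` of `Glue.Red` for `π = dn' (p ^ e) p : W(p ^ (e+1))_m → W(p)_m`;
* `card_loc`     : `#W(n k)_m = #W(n)_m * #W(k)_m`.
-/
import Fermat.Agent.S43.Exp.Op
import Fermat.Agent.S43.H.LocZ

set_option autoImplicit false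

noncomputable section

namespace Fermat.Agent.S43.Exp

open AlgebraicCurve Fermat.Agent.S24 Fermat.Agent.S24.FF Fermat.Agent.S27
open Fermat.Agent.S48.BB.M (W kum IsKum mapW mapW_cls cls cls_surjective nsmul_W)

/-- `Exp.gker` is `LocZ.loc`. -/
theorem gker_eq_loc {A ι : Type*} [AddCommGroup A] (f : ι → AddMonoid.End A) :
    gker f = LocZ.loc (A := A) f := by
  ext x
  show (∀ i, ∃ N : ℕ, (f i ^ N) x = 0) ↔ ∀ i, ∃ N : ℕ, (⇑(f i))^[N] x = 0
  refine forall_congr' fun i => exists_congr fun N => ?_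
  rw [AddMonoid.End.coe_pow]

variable {F : Type*} [Field F] [Algebra Kbar F] [IsFF1 Kbar F] [NonConst Kbar F] {ι : Type*}
  {n k : ℕ}

/-- The package `Ext` for arbitrary compatible families. -/
def extOf (hn : 0 < n) (hk : 0 < k)
    (tA : ι → W F (n * k) →+ W F (n * k)) (tB : ι → W F n →+ W F n) (tC : ι → W F k →+ W F k)
    (hcomm : ∀ i j x, tA i (tA j x) = tA j (tA i x))
    (h_dn : ∀ i y, dn n k (tA i y) = tB i (dn n k y))
    (h_up : ∀ i x, up n k (tB i x) = tA i (up n k x))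
    (h_dn' : ∀ i y, dn' n k (tA i y) = tC i (dn' n k y))
    (h_up' : ∀ i x, up' n k (tC i x) = tA i (up' n k x)) :
    Ext (W F (n * k)) (W F n) (W F k) ι n k where
  dn := dn n k
  up := up n k
  dn' := dn' n k
  up' := up' n k
  dn_surj := dn_surjective hn hk
  dn'_surj := dn'_surjective hn hk
  up_inj := up_injective n hn hk
  up'_inj := up'_injective hn k hk
  up_dn := up_dn n k
  up'_dn' := up'_dn' n k
  tors := fun y hy => exists_up_eq_of_nsmul_eq_zero hn hk y hy
  tors' := fun y hy => exists_up'_eq_of_nsmul_eq_zero hn hk y hy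
  nB := nsmul_W
  kC := nsmul_W
  fA := tA
  fB := tB
  fC := tC
  comm := fun i j => AddMonoidHom.ext fun x => hcomm i j x
  dn_f := h_dn
  up_f := h_up
  dn'_f := h_dn'
  up'_f := h_up'

section

variable (hn : 0 < n) (hk : 0 < k)
  (tA : ι → W F (n * k) →+ W F (n * k)) (tB : ι → W F n →+ W F n) (tC : ι → W F k →+ W F k)
  (hcomm : ∀ i j x, tA i (tA j x) = tA j (tA i x))
  (h_dn : ∀ i y, dn n k (tA i y) = tB i (dn n k y))
  (h_up : ∀ i x, up n k (tB i x) = tA i (up n k x))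
  (h_dn' : ∀ i y, dn' n k (tA i y) = tC i (dn' n k y))
  (h_up' : ∀ i x, up' n k (tC i x) = tA i (up' n k x))
  [Finite (W F (n * k))]

include hn hk hcomm h_dn h_up in
/-- `W(n k)_m[n] = k • W(n k)_m`. -/
theorem div_loc (y : W F (n * k)) (hy : y ∈ LocZ.loc (A := W F (n * k)) tA) (h0 : n • y = 0) :
    ∃ z ∈ LocZ.loc (A := W F (n * k)) tA, y = k • z := by
  obtain ⟨x, rfl⟩ := exists_up_eq_of_nsmul_eq_zero hn hk y h0
  have hx : x ∈ LocZ.loc (A := W F n) tB :=
    LocZ.mem_loc_of_injective (A := W F n) (B := W F (n * k)) (up n k) (up_injective n hn hk) h_up hy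
  obtain ⟨z, hz, rfl⟩ := LocZ.exists_mem_loc_of_surjective (A := W F (n * k)) (B := W F n)
    hcomm (dn n k) h_dn (dn_surjective hn hk) hx
  exact ⟨z, hz, up_dn n k z⟩

include hn hk hcomm h_dn' h_up' in
/-- `W(n k)_m[k] = n • W(n k)_m`. -/
theorem div'_loc (y : W F (n * k)) (hy : y ∈ LocZ.loc (A := W F (n * k)) tA) (h0 : k • y = 0) :
    ∃ z ∈ LocZ.loc (A := W F (n * k)) tA, y = n • z := by
  obtain ⟨x, rfl⟩ := exists_up'_eq_of_nsmul_eq_zero hn hk y h0
  have hx : x ∈ LocZ.loc (A := W F k) tC :=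
    LocZ.mem_loc_of_injective (A := W F k) (B := W F (n * k)) (up' n k) (up'_injective hn k hk) h_up' hy
  obtain ⟨z, hz, rfl⟩ := LocZ.exists_mem_loc_of_surjective (A := W F (n * k)) (B := W F k)
    hcomm (dn' n k) h_dn' (dn'_surjective hn hk) hx
  exact ⟨z, hz, up'_dn' n k z⟩

include hn hk hcomm h_dn in
theorem dn_surj_loc (x : W F n) (hx : x ∈ LocZ.loc (A := W F n) tB) :
    ∃ z ∈ LocZ.loc (A := W F (n * k)) tA, dn n k z = x :=
  LocZ.exists_mem_loc_of_surjective (A := W F (n * k)) (B := W F n)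
    hcomm (dn n k) h_dn (dn_surjective hn hk) hx

include hn hk hcomm h_dn' in
theorem dn'_surj_loc (x : W F k) (hx : x ∈ LocZ.loc (A := W F k) tC) :
    ∃ z ∈ LocZ.loc (A := W F (n * k)) tA, dn' n k z = x :=
  LocZ.exists_mem_loc_of_surjective (A := W F (n * k)) (B := W F k)
    hcomm (dn' n k) h_dn' (dn'_surjective hn hk) hx

include hn hk hcomm h_dn' h_up' in
/-- the kernel of `dn : W(n k)_m → W(n)_m` is `n • W(n k)_m` -/
theorem ker_dn_loc (y : W F (n * k)) (hy : y ∈ LocZ.loc (A := W F (n * k)) tA)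
    (h0 : dn n k y = 0) : ∃ z ∈ LocZ.loc (A := W F (n * k)) tA, y = n • z := by
  apply div'_loc hn hk tA tC hcomm h_dn' h_up' y hy
  rw [← up_dn, h0, map_zero]

include hn hk hcomm h_dn h_up in
/-- the kernel of `dn' : W(n k)_m → W(k)_m` is `k • W(n k)_m` -/
theorem ker_dn'_loc (y : W F (n * k)) (hy : y ∈ LocZ.loc (A := W F (n * k)) tA)
    (h0 : dn' n k y = 0) : ∃ z ∈ LocZ.loc (A := W F (n * k)) tA, y = k • z := by
  apply div_loc hn hk tA tB hcomm h_dn h_up y hy
  rw [← up'_dn', h0, map_zero]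

include hn hk hcomm h_dn h_up h_dn' h_up' in
/-- `#W(n k)_m = #W(n)_m * #W(k)_m`. -/
theorem card_loc :
    Nat.card (LocZ.loc (A := W F (n * k)) tA) =
      Nat.card (LocZ.loc (A := W F n) tB) * Nat.card (LocZ.loc (A := W F k) tC) := by
  have h : Nat.card (gker (A := W F (n * k)) tA) =
      Nat.card (gker (A := W F n) tB) * Nat.card (gker (A := W F k) tC) :=
    (extOf hn hk tA tB tC hcomm h_dn h_up h_dn' h_up').card_loc
  have eA : gker (A := W F (n * k)) tA = LocZ.loc (A := W F (n * k)) tA := gker_eq_loc _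
  have eB : gker (A := W F n) tB = LocZ.loc (A := W F n) tB := gker_eq_loc _
  have eC : gker (A := W F k) tC = LocZ.loc (A := W F k) tC := gker_eq_loc _
  rw [← eA, ← eB, ← eC]
  exact h

end

end Fermat.Agent.S43.Exp

end
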