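/-
Row 37 (S43), block EXP (helper200): EXPORT FOR GLUE, part 2 (exponent `p ^ (e + 1) = p ^ e * p`, language of `H/LocZ.lean`).

* `hdiv_of_Z2`  (abstract) : `(p y = 0 → y ∈ p ^ e G)` ⟹ `(p ^ j y = 0 → y ∈ p ^ (e + 1 - j) G)` for all `j ≤ e + 1`;
* `hdiv_loc`    = hypothesis `hdiv` of `T2/Devissage.lean` (`k = e + 1`) for `W₀ = W(p ^ (e + 1))_m`;
* `hE1_loc`     = hypothesis `hE1` of `T2/Devissage.lean` from (E') at exponent `p` on `W(p)_m`:
                  the `p`-torsion of `W(p ^ (e + 1))_m` is `up' (W(p)_m)`;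
* `exact_mod_p_loc` = field `exact0` of `Asm.Pkg` ((E') on `W_m / p W_m`) from (E') at exponent `p` on `W(p)_m`, via `dn'`.
-/
import Fermat.Agent.S43.Exp.Glue

set_option autoImplicit false
set_option linter.unusedSectionVars false

noncomputable section

namespace Fermat.Agent.S43.Exp

open AlgebraicCurve Fermat.Agent.S24 Fermat.Agent.S24.FF Fermat.Agent.S27
open Fermat.Agent.S48.BB.M (W kum IsKum mapW mapW_cls cls cls_surjective nsmul_W)

/-- From the socle to all the torsion levels. -/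
theorem hdiv_of_Z2 {A : Type*} [AddCommGroup A] (G : AddSubgroup A) (p e : ℕ)
    (hZ2 : ∀ y ∈ G, p • y = 0 → ∃ z ∈ G, y = p ^ e • z) :
    ∀ j, j ≤ e + 1 → ∀ y ∈ G, p ^ j • y = 0 → ∃ z ∈ G, y = p ^ (e + 1 - j) • z := by
  intro j
  induction j with
  | zero =>
    intro _ y _ hy
    rw [pow_zero, one_smul] at hy
    exact ⟨0, G.zero_mem, by rw [hy, smul_zero]⟩
  | succ j ih =>
    intro hj y hyG hy
    have hje : j ≤ e := Nat.le_of_succ_le_succ hj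
    obtain ⟨z, hzG, hz⟩ := hZ2 (p ^ j • y) (G.nsmul_mem hyG _) (by
      rw [← mul_smul, ← pow_succ']; exact hy)
    have hpe : p ^ j * p ^ (e - j) = p ^ e := by rw [← pow_add, Nat.add_sub_cancel' hje]
    obtain ⟨z', hz'G, hz'⟩ := ih (by omega) (y - p ^ (e - j) • z)
      (G.sub_mem hyG (G.nsmul_mem hzG _)) (by rw [smul_sub, ← mul_smul, hpe, hz, sub_self])
    refine ⟨z + p • z', G.add_mem hzG (G.nsmul_mem hz'G _), ?_⟩
    have h1 : e + 1 - (j + 1) = e - j := by omega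
    have h2 : e + 1 - j = (e - j) + 1 := by omega
    rw [h1, smul_add, ← mul_smul, ← pow_succ, ← h2, ← hz']
    abel

variable {F : Type*} [Field F] [Algebra Kbar F] [IsFF1 Kbar F] [NonConst Kbar F] {ι : Type*}
  {p e : ℕ}

section

variable (hp : 0 < p)
  (tA : ι → W F (p ^ e * p) →+ W F (p ^ e * p)) (tC : ι → W F p →+ W F p)
  (hcomm : ∀ i j x, tA i (tA j x) = tA j (tA i x))
  (h_dn' : ∀ i y, dn' (p ^ e) p (tA i y) = tC i (dn' (p ^ e) p y))
  (h_up' : ∀ i x, up' (p ^ e) p (tC i x) = tA i (up' (p ^ e) p x))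
  [Finite (W F (p ^ e * p))]

include hp hcomm h_dn' h_up' in
/-- `W(p ^ (e+1))_m` is free over `ℤ / p ^ (e+1)`. -/
theorem hdiv_loc (j : ℕ) (hj : j ≤ e + 1) (y : W F (p ^ e * p))
    (hy : y ∈ LocZ.loc (A := W F (p ^ e * p)) tA) (h0 : p ^ j • y = 0) :
    ∃ z ∈ LocZ.loc (A := W F (p ^ e * p)) tA, y = p ^ (e + 1 - j) • z :=
  hdiv_of_Z2 (A := W F (p ^ e * p)) (LocZ.loc (A := W F (p ^ e * p)) tA) p e
    (fun y hy h0 => div'_loc (pow_pos hp e) hp tA tC hcomm h_dn' h_up' y hy h0) j hj y hy h0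

include hp h_up' in
/-- (E') on the `p`-torsion of `W(p ^ (e+1))_m` from (E') on `W(p)_m`. -/
theorem hE1_loc (NA : W F (p ^ e * p) →+ W F (p ^ e * p)) (NC : W F p →+ W F p)
    (hN : ∀ x, up' (p ^ e) p (NC x) = NA (up' (p ^ e) p x))
    (hEp : ∀ x ∈ LocZ.loc (A := W F p) tC, NC x = 0 → ∃ z ∈ LocZ.loc (A := W F p) tC, x = NC z)
    (y : W F (p ^ e * p)) (hy : y ∈ LocZ.loc (A := W F (p ^ e * p)) tA) (h0 : p • y = 0)
    (hNy : NA y = 0) :
    ∃ z ∈ LocZ.loc (A := W F (p ^ e * p)) tA, p • z = 0 ∧ y = NA z := by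
  obtain ⟨x, rfl⟩ := exists_up'_eq_of_nsmul_eq_zero (pow_pos hp e) hp y h0
  have hinj := up'_injective (F := F) (pow_pos hp e) p hp
  have hx : x ∈ LocZ.loc (A := W F p) tC :=
    LocZ.mem_loc_of_injective (A := W F p) (B := W F (p ^ e * p)) (up' (p ^ e) p) hinj h_up' hy
  have hNx : NC x = 0 := hinj (by rw [hN, hNy, map_zero])
  obtain ⟨z, hz, rfl⟩ := hEp x hx hNx
  exact ⟨up' (p ^ e) p z,
    LocZ.map_mem_loc (A := W F p) (B := W F (p ^ e * p)) (up' (p ^ e) p) h_up' hz,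
    nsmul_up' _ _ z, hN z⟩

include hp hcomm h_dn' in
/-- (E') on `W_m / p W_m` (`W = W(p ^ (e+1))`) from (E') on `W(p)_m`.  Needs the compatible family at exponent `p ^ e`
only through `ker_dn'_loc`. -/
theorem exact_mod_p_loc (tB : ι → W F (p ^ e) →+ W F (p ^ e))
    (h_dn : ∀ i y, dn (p ^ e) p (tA i y) = tB i (dn (p ^ e) p y))
    (h_up : ∀ i x, up (p ^ e) p (tB i x) = tA i (up (p ^ e) p x))
    (NA : W F (p ^ e * p) →+ W F (p ^ e * p)) (NC : W F p →+ W F p)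
    (hN : ∀ y, dn' (p ^ e) p (NA y) = NC (dn' (p ^ e) p y))
    (hNA : ∀ y ∈ LocZ.loc (A := W F (p ^ e * p)) tA, NA y ∈ LocZ.loc (A := W F (p ^ e * p)) tA)
    (hEp : ∀ x ∈ LocZ.loc (A := W F p) tC, NC x = 0 → ∃ z ∈ LocZ.loc (A := W F p) tC, x = NC z)
    (x : W F (p ^ e * p)) (hx : x ∈ LocZ.loc (A := W F (p ^ e * p)) tA)
    (z : W F (p ^ e * p)) (hxz : NA x = p • z) :
    ∃ s ∈ LocZ.loc (A := W F (p ^ e * p)) tA, ∃ z' ∈ LocZ.loc (A := W F (p ^ e * p)) tA,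
      x = NA s + p • z' := by
  have hx' : dn' (p ^ e) p x ∈ LocZ.loc (A := W F p) tC :=
    LocZ.map_mem_loc (A := W F (p ^ e * p)) (B := W F p) (dn' (p ^ e) p) h_dn' hx
  have h0 : NC (dn' (p ^ e) p x) = 0 := by
    rw [← hN, hxz, map_nsmul]
    exact nsmul_W _
  obtain ⟨s₀, hs₀, hs⟩ := hEp _ hx' h0
  obtain ⟨s, hsA, rfl⟩ := dn'_surj_loc (pow_pos hp e) hp tA tC hcomm h_dn' s₀ hs₀
  have hmem : x - NA s ∈ LocZ.loc (A := W F (p ^ e * p)) tA :=
    (LocZ.loc (A := W F (p ^ e * p)) tA).sub_mem hx (hNA s hsA)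
  obtain ⟨z', hz', hxs⟩ := ker_dn'_loc (pow_pos hp e) hp tA tB hcomm h_dn h_up (x - NA s) hmem
    ((map_sub (dn' (p ^ e) p) x (NA s)).trans (by rw [hN, ← hs]; exact sub_self (dn' (p ^ e) p x : W F p)))
  exact ⟨s, hsA, z', hz', by rw [← hxs]; exact (add_sub_cancel (NA s) x).symm⟩

end

end Fermat.Agent.S43.Exp

end
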