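/-
Row 37 (S43), block EXP (helper200): SPECIALISATION to `F = FB F₀`, `hL : IsLvl F₀ H N` (so to `F1Q q M` and to
`modularFunctionFieldFull (q * M)`): instances, surjectivity, and the compatibility of `dn`, `dn'`, `up`, `up'` with
`rho`, `autW`, `HeckeOp1.TW`, `HeckeOp1.DW`, `UOp.UW` (all are instances of `dn_mapW`, ...; for maps between two fields, e.g.
`piUp`, `piDown`, `upW`, `dnW`, use `dn_mapW`, `dn'_mapW`, `up_mapW`, `up'_mapW` directly: they are `mapW`'s).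
-/
import Fermat.Agent.S43.Exp.Glue2
import Fermat.Agent.S48.BB.U.Basic
import Fermat.Agent.S43.Ops.U.Defs

set_option autoImplicit false

noncomputable section

namespace Fermat.Agent.S43.Exp

open ModularCurve AlgebraicCurve Fermat.Agent.S24 Fermat.Agent.S24.FF Fermat.Agent.S27
open Fermat.Agent.S48.BB Fermat.Agent.S48.BB.E
open Fermat.Agent.GAL.E (GQ)
open scoped MatrixGroups

variable {F₀ : IntermediateField ℚ (LaurentSeries ℚ)}

theorem nonConst_FB {H : Subgroup SL(2, ℤ)} {N : ℕ} [NeZero N] (hL : IsLvl F₀ H N) :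
    NonConst Kbar (FB F₀) := ⟨⟨_, U.transcendental_jB hL⟩⟩

theorem dn_surjective_FB {H : Subgroup SL(2, ℤ)} {N : ℕ} [NeZero N] (hL : IsLvl F₀ H N)
    {n k : ℕ} (hn : 0 < n) (hk : 0 < k) : Function.Surjective (dn (F := FB F₀) n k) :=
  have := U.isFF1 hL
  have := nonConst_FB hL
  dn_surjective hn hk

theorem dn'_surjective_FB {H : Subgroup SL(2, ℤ)} {N : ℕ} [NeZero N] (hL : IsLvl F₀ H N)
    {n k : ℕ} (hn : 0 < n) (hk : 0 < k) : Function.Surjective (dn' (F := FB F₀) n k) :=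
  have := U.isFF1 hL
  have := nonConst_FB hL
  dn'_surjective hn hk

variable (n k : ℕ)

/-! ### Galois -/

theorem dn_rho (σ : GQ) (y : W1 F₀ (n * k)) :
    dn n k (rho F₀ (n * k) σ y) = rho F₀ n σ (dn n k y) :=
  dn_mapW (galU F₀ σ) (galU_mem_kum σ) (galU_mem_kum σ) y

theorem dn'_rho (σ : GQ) (y : W1 F₀ (n * k)) :
    dn' n k (rho F₀ (n * k) σ y) = rho F₀ k σ (dn' n k y) :=
  dn'_mapW (galU F₀ σ) (galU_mem_kum σ) (galU_mem_kum σ) y

theorem up_rho (σ : GQ) (x : W1 F₀ n) :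
    up n k (rho F₀ n σ x) = rho F₀ (n * k) σ (up n k x) :=
  up_mapW (galU F₀ σ) (galU_mem_kum σ) (galU_mem_kum σ) x

theorem up'_rho (σ : GQ) (x : W1 F₀ k) :
    up' n k (rho F₀ k σ x) = rho F₀ (n * k) σ (up' n k x) :=
  up'_mapW (galU F₀ σ) (galU_mem_kum σ) (galU_mem_kum σ) x

/-! ### Automorphisms (diamonds, `w`) -/

theorem dn_autW (D : FB F₀ ≃ₐ[Kbar] FB F₀) (y : W1 F₀ (n * k)) :
    dn n k (autW D (n * k) y) = autW D n (dn n k y) :=
  dn_mapW (autU D) (autU_mem_kum D) (autU_mem_kum D) y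

theorem dn'_autW (D : FB F₀ ≃ₐ[Kbar] FB F₀) (y : W1 F₀ (n * k)) :
    dn' n k (autW D (n * k) y) = autW D k (dn' n k y) :=
  dn'_mapW (autU D) (autU_mem_kum D) (autU_mem_kum D) y

theorem up_autW (D : FB F₀ ≃ₐ[Kbar] FB F₀) (x : W1 F₀ n) :
    up n k (autW D n x) = autW D (n * k) (up n k x) :=
  up_mapW (autU D) (autU_mem_kum D) (autU_mem_kum D) x

theorem up'_autW (D : FB F₀ ≃ₐ[Kbar] FB F₀) (x : W1 F₀ k) :
    up' n k (autW D k x) = autW D (n * k) (up' n k x) :=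
  up'_mapW (autU D) (autU_mem_kum D) (autU_mem_kum D) x

/-! ### Hecke operators -/

section hecke

variable {l : ℕ} [NeZero l] (T : HeckeOp1 F₀ l)

theorem dn_TW (y : W1 F₀ (n * k)) : dn n k (T.TW (n * k) y) = T.TW n (dn n k y) :=
  dn_mapW T.TU (fun u hu => T.TU_mem_kum u hu) (fun u hu => T.TU_mem_kum u hu) y

theorem dn'_TW (y : W1 F₀ (n * k)) : dn' n k (T.TW (n * k) y) = T.TW k (dn' n k y) :=
  dn'_mapW T.TU (fun u hu => T.TU_mem_kum u hu) (fun u hu => T.TU_mem_kum u hu) y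

theorem up_TW (x : W1 F₀ n) : up n k (T.TW n x) = T.TW (n * k) (up n k x) :=
  up_mapW T.TU (fun u hu => T.TU_mem_kum u hu) (fun u hu => T.TU_mem_kum u hu) x

theorem up'_TW (x : W1 F₀ k) : up' n k (T.TW k x) = T.TW (n * k) (up' n k x) :=
  up'_mapW T.TU (fun u hu => T.TU_mem_kum u hu) (fun u hu => T.TU_mem_kum u hu) x

theorem dn_DW (y : W1 F₀ (n * k)) : dn n k (T.DW (n * k) y) = T.DW n (dn n k y) :=
  dn_autW n k T.D y

theorem dn'_DW (y : W1 F₀ (n * k)) : dn' n k (T.DW (n * k) y) = T.DW k (dn' n k y) :=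
  dn'_autW n k T.D y

theorem up_DW (x : W1 F₀ n) : up n k (T.DW n x) = T.DW (n * k) (up n k x) :=
  up_autW n k T.D x

theorem up'_DW (x : W1 F₀ k) : up' n k (T.DW k x) = T.DW (n * k) (up' n k x) :=
  up'_autW n k T.D x

end hecke

section uq

variable {q : ℕ} [NeZero q] (X : Ops.U.UOp F₀ q)

theorem dn_UW (y : W1 F₀ (n * k)) : dn n k (X.UW (n * k) y) = X.UW n (dn n k y) :=
  dn_mapW X.UU (fun u hu => X.UU_mem_kum u hu) (fun u hu => X.UU_mem_kum u hu) y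

theorem dn'_UW (y : W1 F₀ (n * k)) : dn' n k (X.UW (n * k) y) = X.UW k (dn' n k y) :=
  dn'_mapW X.UU (fun u hu => X.UU_mem_kum u hu) (fun u hu => X.UU_mem_kum u hu) y

theorem up_UW (x : W1 F₀ n) : up n k (X.UW n x) = X.UW (n * k) (up n k x) :=
  up_mapW X.UU (fun u hu => X.UU_mem_kum u hu) (fun u hu => X.UU_mem_kum u hu) x

theorem up'_UW (x : W1 F₀ k) : up' n k (X.UW k x) = X.UW (n * k) (up' n k x) :=
  up'_mapW X.UU (fun u hu => X.UU_mem_kum u hu) (fun u hu => X.UU_mem_kum u hu) x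

end uq

end Fermat.Agent.S43.Exp

end
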